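/-
S25 package DICT -- universal-property form of base change along a ring hom (semilinear
additive maps), i.e. exactly the shape of the frozen `GluedModule.BaseChangeData.univ₁/₂` and
of `Rigid`.  Pure algebra on top of the frozen `Defs.lean`.
Author: helper5590.  No sorry.

Main statements (namespace `Fermat.Agent.S25.DICT`):
* `IsBCMap ψ j`            : `j : N →+ N'` is `ψ`-semilinear and universal (`N' = B' ⊗[B] N`);
* `IsBCMap.lift`, `IsBCMap.lift_apply`, `IsBCMap.hom_ext`, `IsBCMap.span_range`;
* `IsBCMap.equiv`          : two base changes of the same module are canonically isomorphic;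
* `IsBCMap.transport`      : transport along semilinear isomorphisms (ring isos `β`, `β'`);
* `IsBCMap.semilinearEquiv`: a semilinear iso `N ≃ P` over `β` induces one `N' ≃ P'` over `β'`;
* `IsBCMap.of_isBaseChange`, `IsBCMap.isBaseChange` : comparison with Mathlib's `IsBaseChange`;
* `isBCMap_tmul`           : `n ↦ 1 ⊗ n` is universal;
* `BaseChangeData.isBCMap₁/₂` and `rigid_iff_exists_isBCMap`, `rigid_iff_nonempty_equiv`.
-/
import Fermat.Agent.S25.Defs

set_option autoImplicit false
set_option linter.style.haveILetI false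

universe u

namespace Fermat.Agent.S25.DICT

open scoped TensorProduct

/-- `j : N →+ N'` is `ψ`-semilinear and exhibits `N'` as the base change of `N` along
`ψ : B →+* B'` (universal property against `B'`-modules in `Type u`). -/
structure IsBCMap {B B' : Type u} [CommRing B] [CommRing B'] (ψ : B →+* B')
    {N N' : Type u} [AddCommGroup N] [Module B N] [AddCommGroup N'] [Module B' N']
    (j : N →+ N') : Prop where
  map_smul : ∀ (b : B) (n : N), j (b • n) = ψ b • j n
  univ : ∀ (Q : Type u) [AddCommGroup Q] [Module B' Q] (h : N →+ Q),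
    (∀ (b : B) (n : N), h (b • n) = ψ b • h n) →
      ∃! h' : N' →ₗ[B'] Q, ∀ n, h' (j n) = h n

namespace IsBCMap

section basic

variable {B B' : Type u} [CommRing B] [CommRing B'] {ψ : B →+* B'}
  {N N' : Type u} [AddCommGroup N] [Module B N] [AddCommGroup N'] [Module B' N']
  {j : N →+ N'}

/-- The induced linear map out of the base change. -/
noncomputable def lift (hj : IsBCMap ψ j) {Q : Type u} [AddCommGroup Q] [Module B' Q]
    (h : N →+ Q) (hh : ∀ (b : B) (n : N), h (b • n) = ψ b • h n) : N' →ₗ[B'] Q :=
  (hj.univ Q h hh).choose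

@[simp] theorem lift_apply (hj : IsBCMap ψ j) {Q : Type u} [AddCommGroup Q] [Module B' Q]
    (h : N →+ Q) (hh : ∀ (b : B) (n : N), h (b • n) = ψ b • h n) (n : N) :
    hj.lift h hh (j n) = h n :=
  (hj.univ Q h hh).choose_spec.1 n

/-- Linear maps out of a base change are determined by their values on the image of `j`. -/
theorem hom_ext (hj : IsBCMap ψ j) {Q : Type u} [AddCommGroup Q] [Module B' Q]
    {g₁ g₂ : N' →ₗ[B'] Q} (h : ∀ n, g₁ (j n) = g₂ (j n)) : g₁ = g₂ := by
  have hsemi : ∀ (b : B) (n : N), (g₂.toAddMonoidHom.comp j) (b • n) =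
      ψ b • (g₂.toAddMonoidHom.comp j) n := by
    intro b n
    simp [hj.map_smul]
  obtain ⟨g, -, hg⟩ := hj.univ Q (g₂.toAddMonoidHom.comp j) hsemi
  rw [hg g₁ (fun n => by simpa using h n), hg g₂ (fun n => by simp)]

/-- The image of `j` spans the base change. -/
theorem span_range (hj : IsBCMap ψ j) : Submodule.span B' (Set.range j) = ⊤ := by
  set S := Submodule.span B' (Set.range j) with hS
  have h0 : S.mkQ = 0 := by
    apply hj.hom_ext
    intro n
    simp only [Submodule.mkQ_apply, LinearMap.zero_apply]
    rw [Submodule.Quotient.mk_eq_zero]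
    exact Submodule.subset_span ⟨n, rfl⟩
  rw [eq_top_iff]
  intro x _
  have : S.mkQ x = 0 := by rw [h0]; rfl
  rwa [Submodule.mkQ_apply, Submodule.Quotient.mk_eq_zero] at this

/-- Two base changes of the same module along the same ring hom are canonically isomorphic. -/
noncomputable def equiv {N'' : Type u} [AddCommGroup N''] [Module B' N''] {j' : N →+ N''}
    (hj : IsBCMap ψ j) (hj' : IsBCMap ψ j') : N' ≃ₗ[B'] N'' :=
  LinearEquiv.ofLinearMap (hj.lift j' hj'.map_smul) (hj'.lift j hj.map_smul)
    (hj'.hom_ext (fun n => by simp))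
    (hj.hom_ext (fun n => by simp))

@[simp] theorem equiv_apply {N'' : Type u} [AddCommGroup N''] [Module B' N''] {j' : N →+ N''}
    (hj : IsBCMap ψ j) (hj' : IsBCMap ψ j') (n : N) : hj.equiv hj' (j n) = j' n := by
  simp [equiv]

@[simp] theorem equiv_symm_apply {N'' : Type u} [AddCommGroup N''] [Module B' N'']
    {j' : N →+ N''} (hj : IsBCMap ψ j) (hj' : IsBCMap ψ j') (n : N) :
    (hj.equiv hj').symm (j' n) = j n := by
  simp [equiv]

/-- Post-composing with a linear isomorphism preserves universality. -/
theorem comp_equiv {N'' : Type u} [AddCommGroup N''] [Module B' N''] (hj : IsBCMap ψ j)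
    (e : N' ≃ₗ[B'] N'') : IsBCMap ψ (e.toLinearMap.toAddMonoidHom.comp j) where
  map_smul b n := by simp [hj.map_smul]
  univ Q _ _ h hh := by
    refine ⟨(hj.lift h hh).comp e.symm.toLinearMap, fun n => by simp, ?_⟩
    intro g hg
    have : g.comp e.toLinearMap = hj.lift h hh :=
      hj.hom_ext (fun n => by simpa using hg n)
    rw [← this]
    ext x
    simp

/-- Pre-composing with a linear isomorphism preserves universality. -/
theorem equiv_comp {N₀ : Type u} [AddCommGroup N₀] [Module B N₀] (hj : IsBCMap ψ j)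
    (e : N₀ ≃ₗ[B] N) : IsBCMap ψ (j.comp e.toLinearMap.toAddMonoidHom) where
  map_smul b n := by simp [hj.map_smul]
  univ Q _ _ h hh := by
    have hh' : ∀ (b : B) (n : N), (h.comp e.symm.toLinearMap.toAddMonoidHom) (b • n) =
        ψ b • (h.comp e.symm.toLinearMap.toAddMonoidHom) n := by
      intro b n
      simp [hh]
    refine ⟨hj.lift _ hh', fun n => by simp, ?_⟩
    intro g hg
    apply hj.hom_ext
    intro n
    have := hg (e.symm n)
    simp only [AddMonoidHom.coe_comp, LinearMap.toAddMonoidHom_coe, LinearEquiv.coe_coe,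
      Function.comp_apply, LinearEquiv.apply_symm_apply] at this
    simp [this]

end basic

section transport

variable {B B' C C' : Type u} [CommRing B] [CommRing B'] [CommRing C] [CommRing C']
  {ψ : B →+* B'} {ψ' : C →+* C'} (β : B ≃+* C) (β' : B' ≃+* C')
  (hβ : ∀ b, β' (ψ b) = ψ' (β b))
  {N N' P P' : Type u} [AddCommGroup N] [Module B N] [AddCommGroup N'] [Module B' N']
  [AddCommGroup P] [Module C P] [AddCommGroup P'] [Module C' P']
  {j : N →+ N'} {j' : P →+ P'}

include hβ in
/-- A semilinear isomorphism `s : N ≃ P` over `β` between the sources of two base-change maps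
induces a unique semilinear isomorphism `s' : N' ≃ P'` over `β'` with `s' ∘ j = j' ∘ s`. -/
theorem semilinearEquiv (hj : IsBCMap ψ j) (hj' : IsBCMap ψ' j') (s : N ≃+ P)
    (hs : ∀ (b : B) (n : N), s (b • n) = β b • s n) :
    ∃ s' : N' ≃+ P', (∀ (b : B') (n : N'), s' (b • n) = β' b • s' n) ∧
      ∀ n, s' (j n) = j' (s n) := by
  have hβs : ∀ c, β'.symm (ψ' c) = ψ (β.symm c) := by
    intro c
    apply β'.injective
    rw [RingEquiv.apply_symm_apply, hβ, RingEquiv.apply_symm_apply]
  have hs' : ∀ (c : C) (p : P), s.symm (c • p) = β.symm c • s.symm p := by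
    intro c p
    apply s.injective
    rw [hs]
    simp
  -- `P'` as a `B'`-module through `β'`
  letI modP' : Module B' P' := Module.compHom P' (β' : B' →+* C')
  have smulP' : ∀ (b : B') (p : P'), b • p = β' b • p := fun _ _ => rfl
  -- `N'` as a `C'`-module through `β'⁻¹`
  letI modN' : Module C' N' := Module.compHom N' (β'.symm : C' →+* B')
  have smulN' : ∀ (c : C') (n : N'), c • n = β'.symm c • n := fun _ _ => rfl
  have h1 : ∀ (b : B) (n : N), (j'.comp s.toAddMonoidHom) (b • n) =
      ψ b • (j'.comp s.toAddMonoidHom) n := by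
    intro b n
    simp only [AddMonoidHom.coe_comp, AddEquiv.coe_toAddMonoidHom, Function.comp_apply]
    rw [hs, hj'.map_smul, smulP', hβ]
  have h2 : ∀ (c : C) (p : P), (j.comp s.symm.toAddMonoidHom) (c • p) =
      ψ' c • (j.comp s.symm.toAddMonoidHom) p := by
    intro c p
    simp only [AddMonoidHom.coe_comp, AddEquiv.coe_toAddMonoidHom, Function.comp_apply]
    rw [hs', hj.map_smul, smulN', hβs]
  let F : N' →ₗ[B'] P' := hj.lift _ h1
  let G : P' →ₗ[C'] N' := hj'.lift _ h2
  have hF : ∀ n, F (j n) = j' (s n) := fun n => by simp [F]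
  have hG : ∀ p, G (j' p) = j (s.symm p) := fun p => by simp [G]
  have hFsmul : ∀ (b : B') (n : N'), F (b • n) = β' b • F n := fun b n => by
    rw [F.map_smul, smulP']
  have hGsmul : ∀ (c : C') (p : P'), G (c • p) = β'.symm c • G p := fun c p => by
    rw [G.map_smul, smulN']
  -- the two composites are the identity
  have hGF : ∀ n, G (F n) = n := by
    let GF : N' →ₗ[B'] N' :=
      { toFun := fun n => G (F n)
        map_add' := fun x y => by simp
        map_smul' := fun b n => by
          simp only [RingHom.id_apply]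
          rw [hFsmul, hGsmul, RingEquiv.symm_apply_apply] }
    have : GF = LinearMap.id := hj.hom_ext (fun n => by
      change G (F (j n)) = j n
      rw [hF, hG, AddEquiv.symm_apply_apply])
    intro n
    exact LinearMap.congr_fun this n
  have hFG : ∀ p, F (G p) = p := by
    let FG : P' →ₗ[C'] P' :=
      { toFun := fun p => F (G p)
        map_add' := fun x y => by simp
        map_smul' := fun c p => by
          simp only [RingHom.id_apply]
          rw [hGsmul, hFsmul, RingEquiv.apply_symm_apply] }
    have : FG = LinearMap.id := hj'.hom_ext (fun p => by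
      change F (G (j' p)) = j' p
      rw [hG, hF, AddEquiv.apply_symm_apply])
    intro p
    exact LinearMap.congr_fun this p
  refine ⟨{ toFun := F, invFun := G, left_inv := hGF, right_inv := hFG,
            map_add' := fun x y => by simp }, hFsmul, hF⟩

include hβ in
/-- Transport of universality along semilinear isomorphisms of source and target. -/
theorem transport (hj : IsBCMap ψ j) (s : N ≃+ P) (s' : N' ≃+ P')
    (hs : ∀ (b : B) (n : N), s (b • n) = β b • s n)
    (hs' : ∀ (b : B') (n : N'), s' (b • n) = β' b • s' n)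
    (hcomm : ∀ n, s' (j n) = j' (s n)) : IsBCMap ψ' j' where
  map_smul c p := by
    obtain ⟨n, rfl⟩ := s.surjective p
    obtain ⟨b, rfl⟩ := β.surjective c
    rw [← hs, ← hcomm, hj.map_smul, hs', hcomm, hβ]
  univ Q _ _ h hh := by
    have hs'symm : ∀ (c : C') (p : P'), s'.symm (c • p) = β'.symm c • s'.symm p := by
      intro c p
      apply s'.injective
      rw [hs']
      simp
    letI modQ : Module B' Q := Module.compHom Q (β' : B' →+* C')
    have smulQ : ∀ (b : B') (q : Q), b • q = β' b • q := fun _ _ => rfl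
    have h1 : ∀ (b : B) (n : N), (h.comp s.toAddMonoidHom) (b • n) =
        ψ b • (h.comp s.toAddMonoidHom) n := by
      intro b n
      simp only [AddMonoidHom.coe_comp, AddEquiv.coe_toAddMonoidHom, Function.comp_apply]
      rw [hs, hh, smulQ, hβ]
    let F : N' →ₗ[B'] Q := hj.lift _ h1
    have hF : ∀ n, F (j n) = h (s n) := fun n => by simp [F]
    let F' : P' →ₗ[C'] Q :=
      { toFun := fun p => F (s'.symm p)
        map_add' := fun x y => by simp
        map_smul' := fun c p => by
          simp only [RingHom.id_apply]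
          rw [hs'symm, F.map_smul, smulQ, RingEquiv.apply_symm_apply] }
    refine ⟨F', fun p => ?_, fun g hg => ?_⟩
    · obtain ⟨n, rfl⟩ := s.surjective p
      change F (s'.symm (j' (s n))) = h (s n)
      rw [← hcomm, AddEquiv.symm_apply_apply, hF]
    · let g' : N' →ₗ[B'] Q :=
        { toFun := fun n => g (s' n)
          map_add' := fun x y => by simp
          map_smul' := fun b n => by
            simp only [RingHom.id_apply]
            rw [hs', g.map_smul, smulQ] }
      have : g' = F := hj.hom_ext (fun n => by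
        change g (s' (j n)) = F (j n)
        rw [hcomm, hg, hF])
      ext p
      change g p = F (s'.symm p)
      rw [← this]
      change g p = g (s' (s'.symm p))
      rw [AddEquiv.apply_symm_apply]

end transport

section mathlib

variable {B B' : Type u} [CommRing B] [CommRing B'] [Algebra B B']
  {N N' : Type u} [AddCommGroup N] [Module B N] [AddCommGroup N'] [Module B N'] [Module B' N']
  [IsScalarTower B B' N']

/-- Mathlib's `IsBaseChange` gives the universal property. -/
theorem of_isBaseChange (j : N →ₗ[B] N') (hj : IsBaseChange B' j) :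
    IsBCMap (algebraMap B B') j.toAddMonoidHom where
  map_smul b n := by simp
  univ Q _ _ h hh := by
    letI : Module B Q := Module.compHom Q (algebraMap B B')
    haveI : IsScalarTower B B' Q := ⟨fun b b' q => by
      change (b • b') • q = algebraMap B B' b • b' • q
      rw [Algebra.smul_def, mul_smul]⟩
    let hl : N →ₗ[B] Q := { toFun := h, map_add' := h.map_add, map_smul' := fun b n => hh b n }
    refine ⟨hj.lift hl, fun n => hj.lift_eq hl n, fun g hg => ?_⟩
    apply hj.algHom_ext'
    ext n
    simp only [LinearMap.coe_comp, Function.comp_apply, LinearMap.coe_restrictScalars]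
    rw [hj.lift_eq]
    exact hg n

/-- The tautological base change: `n ↦ 1 ⊗ₜ n`. -/
theorem tmul (B' : Type u) [CommRing B'] [Algebra B B'] (N : Type u) [AddCommGroup N]
    [Module B N] : IsBCMap (algebraMap B B') (TensorProduct.mk B B' N 1).toAddMonoidHom :=
  of_isBaseChange _ (TensorProduct.isBaseChange B N B')

/-- The universal property gives Mathlib's `IsBaseChange`. -/
theorem isBaseChange (j : N →ₗ[B] N') (hj : IsBCMap (algebraMap B B') j.toAddMonoidHom) :
    IsBaseChange B' j :=
  IsBaseChange.of_equiv ((tmul B' N).equiv hj) (fun x => (tmul B' N).equiv_apply hj x)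

end mathlib

end IsBCMap

/-! ### The frozen definitions in terms of `IsBCMap` -/

section frozen

open GluedModule

theorem _root_.Fermat.Agent.S25.GluedModule.BaseChangeData.isBCMap₁ {R R' : Type u} [CommRing R]
    [CommRing R'] {φ : R →+* R'} {𝔹 : TwoChart R} {𝔹' : TwoChart R'} {Ψ : TwoChart.Hom φ 𝔹 𝔹'}
    {N : GluedModule 𝔹} {N' : GluedModule 𝔹'} (D : BaseChangeData Ψ N N') :
    IsBCMap Ψ.ψ₁ D.j₁ :=
  ⟨D.j₁_smul, D.univ₁⟩

theorem _root_.Fermat.Agent.S25.GluedModule.BaseChangeData.isBCMap₂ {R R' : Type u} [CommRing R]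
    [CommRing R'] {φ : R →+* R'} {𝔹 : TwoChart R} {𝔹' : TwoChart R'} {Ψ : TwoChart.Hom φ 𝔹 𝔹'}
    {N : GluedModule 𝔹} {N' : GluedModule 𝔹'} (D : BaseChangeData Ψ N N') :
    IsBCMap Ψ.ψ₂ D.j₂ :=
  ⟨D.j₂_smul, D.univ₂⟩

variable {k : Type u} [Field k] (𝒞 : CurveData k) {R : Type u} [CommRing R] [Algebra k R]

/-- `Rigid` says: the `ε`-fibre of `N₁` is `R`, in `IsBCMap` form. -/
theorem rigid_iff_exists_isBCMap (N : GluedModule (𝒞.chart R)) :
    Rigid 𝒞 N ↔ ∃ e : N.N₁ →+ R, IsBCMap (𝒞.epsR R : (𝒞.chart R).B₁ →+* R) e := by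
  have hlin : ∀ {Q : Type u} [AddCommGroup Q] [Module R Q] (h : N.N₁ →+ Q),
      (∀ (b : (𝒞.chart R).B₁) (n : N.N₁), h (b • n) = (𝒞.epsR R : (𝒞.chart R).B₁ →+* R) b • h n) →
      ∀ (r : R) (n : N.N₁), h (r • n) = r • h n := by
    intro Q _ _ h hh r n
    rw [← algebraMap_smul (𝒞.chart R).B₁ r n, hh]
    congr 1
    exact (𝒞.epsR R).commutes r
  constructor
  · rintro ⟨e, he, hu⟩
    refine ⟨e.toAddMonoidHom, fun b n => he b n, ?_⟩
    intro Q _ _ h hh
    let hl : N.N₁ →ₗ[R] Q :=
      { toFun := h, map_add' := h.map_add, map_smul' := fun r n => hlin h hh r n }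
    exact hu Q hl hh
  · rintro ⟨e, he⟩
    let el : N.N₁ →ₗ[R] R :=
      { toFun := e, map_add' := e.map_add, map_smul' := fun r n => hlin e he.map_smul r n }
    refine ⟨el, fun b n => he.map_smul b n, ?_⟩
    intro Q _ _ h hh
    exact he.univ Q h.toAddMonoidHom hh

end frozen

end Fermat.Agent.S25.DICT
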