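/-
S25 package DICT -- FROZEN definitions of the package plan (helper5590, acting plan):
`FamilyAtlas` (atlases of `C ×_k Spec R` modelled on `𝒞.chart R`, for all `R`, compatible with
base change and the rigidifying section) and the correspondence `Corr` (FIXED).
On top of helper5771's `Atlas`/`toGlued` (`DICT/QcLoc.lean`, `DICT/ToGlued.lean`: verbatim copies
with the namespace renamed).  No sorry.  Leaf files import THIS file, never `DICT/Plan.lean`.
-/
import Fermat.Agent.S25.SchDefs
import Fermat.Agent.S25.DICT.ToGlued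
import Fermat.Agent.S25.DICT.UnivBC

set_option autoImplicit false

universe u

namespace Fermat.Agent.S25.DICT

open CategoryTheory CategoryTheory.Limits AlgebraicGeometry AlgebraicGeometry.RelPicard
  NeronModelInfra GoodReductionJacobian

/-- For every `k`-algebra `R` an atlas of `C ×_k Spec R` modelled on `𝒞.chart R`, compatible
with base change `R → R'` and with the rigidifying section. -/
structure FamilyAtlas {k : Type u} [Field k] {C : Scheme.{u}} (c : C ⟶ Spec (CommRingCat.of k))
    (ε : SchemeHomOver (𝟙 (Spec (CommRingCat.of k))) c) (𝒞 : CurveData k) where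
  atlas : ∀ (R : Type u) [CommRing R] [Algebra k R], Atlas (pullback c (tR k R)) (𝒞.chart R)
  bc₁ : ∀ {R R' : Type u} [CommRing R] [Algebra k R] [CommRing R'] [Algebra k R']
    (φ : R →ₐ[k] R'), (atlas R').φ₁ ≫ baseChangeSnd c (specHomOver k φ) =
      Spec.map (CommRingCat.ofHom (𝒞.chartHom φ).ψ₁) ≫ (atlas R).φ₁
  bc₂ : ∀ {R R' : Type u} [CommRing R] [Algebra k R] [CommRing R'] [Algebra k R']
    (φ : R →ₐ[k] R'), (atlas R').φ₂ ≫ baseChangeSnd c (specHomOver k φ) =
      Spec.map (CommRingCat.ofHom (𝒞.chartHom φ).ψ₂) ≫ (atlas R).φ₂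
  rig : ∀ (R : Type u) [CommRing R] [Algebra k R], rigSection c (tR k R) ε =
    Spec.map (CommRingCat.ofHom (𝒞.epsR R : (𝒞.chart R).B₁ →+* R)) ≫ (atlas R).φ₁

section dictionary

variable {k : Type u} [Field k] {C : Scheme.{u}} {c : C ⟶ Spec (CommRingCat.of k)}
  {ε : SchemeHomOver (𝟙 (Spec (CommRingCat.of k))) c} {𝒞 : CurveData k}

/-- **The correspondence** (FIXED): `M` is invertible (hence quasi-coherent), `N` is a line bundle,
and `N` is isomorphic to the glued module of sections of `M` on the two charts. -/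
def Corr (𝔄 : FamilyAtlas c ε 𝒞) (R : Type u) [CommRing R] [Algebra k R]
    (M : (pullback c (tR k R)).Modules) (N : GluedModule (𝒞.chart R)) : Prop :=
  Scheme.Modules.IsInvertible M ∧ N.IsLineBundle ∧
    ∃ _ : M.IsQuasicoherent, Nonempty (N.Iso ((𝔄.atlas R).toGlued M))

/-- Invertibility is invariant under isomorphism (no sorry). -/
theorem isInvertible_of_iso {Y : Scheme.{u}} {M M' : Y.Modules}
    (hM : Scheme.Modules.IsInvertible M) (i : M ≅ M') : Scheme.Modules.IsInvertible M' := by
  refine ⟨fun x => ?_⟩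
  obtain ⟨U, hxU, ⟨eU⟩⟩ := hM.1 x
  exact ⟨U, hxU, ⟨(Scheme.Modules.pullback U.ι).mapIso i.symm ≪≫ eU⟩⟩

end dictionary

end Fermat.Agent.S25.DICT
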