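/-
S25 / SM3a (helper5771): sections of a quasi-coherent module over an affine open localize.
Mathlib-only.
-/
import Mathlib

set_option autoImplicit false

universe u

open CategoryTheory AlgebraicGeometry TopologicalSpace Opposite

namespace Fermat.Agent.S25.DICT

variable {X : Scheme.{u}}

lemma fromSpec_image_le {U : X.Opens} (hU : IsAffineOpen U) (V : (Spec Γ(X, U)).Opens) :
    hU.fromSpec ''ᵁ V ≤ U := by
  have := hU.fromSpec.image_le_opensRange V
  rwa [hU.opensRange_fromSpec] at this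

/-- Compatibility of the scalar actions: the `Γ(X, U)`-action on sections of the restriction to
`Spec Γ(X, U)`. -/
lemma fromSpec_appIso_inv_res {U : X.Opens} (hU : IsAffineOpen U) (V : (Spec Γ(X, U)).Opens)
    (a : Γ(X, U)) :
    (hU.fromSpec.appIso V).inv
        ((Spec Γ(X, U)).presheaf.map V.leTop.op ((Scheme.ΓSpecIso Γ(X, U)).inv a)) =
      X.presheaf.map (homOfLE (fromSpec_image_le hU V)).op a := by
  have e : V ≤ hU.fromSpec ⁻¹ᵁ U := by rw [hU.fromSpec_preimage_self]; exact le_top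
  have h : hU.fromSpec.appLE U V e =
      (Scheme.ΓSpecIso Γ(X, U)).inv ≫ (Spec Γ(X, U)).presheaf.map V.leTop.op := by
    rw [Scheme.Hom.appLE, hU.fromSpec_app_self, Category.assoc, ← Functor.map_comp]
    rfl
  have h2 := hU.fromSpec.appLE_appIso_inv e
  rw [h] at h2
  exact congr($h2 a)

section

variable (M : X.Modules)

lemma map_eq_map {A B : X.Opens} (p q : (op A : (X.Opens)ᵒᵖ) ⟶ op B) (x : Γ(M, A)) :
    M.presheaf.map p x = M.presheaf.map q x := by
  rw [show p = q from Quiver.Hom.unop_inj (Subsingleton.elim _ _)]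

lemma map_map {A B C : X.Opens} (p : (op A : (X.Opens)ᵒᵖ) ⟶ op B) (q : (op B : (X.Opens)ᵒᵖ) ⟶ op C)
    (r : (op A : (X.Opens)ᵒᵖ) ⟶ op C) (x : Γ(M, A)) :
    M.presheaf.map q (M.presheaf.map p x) = M.presheaf.map r x := by
  rw [← ConcreteCategory.comp_apply, ← Functor.map_comp]
  exact map_eq_map M _ _ x

lemma map_map_map {A B C D : X.Opens} (p : (op A : (X.Opens)ᵒᵖ) ⟶ op B)
    (q : (op B : (X.Opens)ᵒᵖ) ⟶ op C) (r : (op C : (X.Opens)ᵒᵖ) ⟶ op D)
    (t : (op A : (X.Opens)ᵒᵖ) ⟶ op D) (x : Γ(M, A)) :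
    M.presheaf.map r (M.presheaf.map q (M.presheaf.map p x)) = M.presheaf.map t x := by
  rw [map_map M p q (p ≫ q), map_map M (p ≫ q) r t]

lemma res_eq_res {A B : X.Opens} (p q : (op A : (X.Opens)ᵒᵖ) ⟶ op B) (x : Γ(X, A)) :
    X.presheaf.map p x = X.presheaf.map q x := by
  rw [show p = q from Quiver.Hom.unop_inj (Subsingleton.elim _ _)]

lemma res_res {A B C : X.Opens} (p : (op A : (X.Opens)ᵒᵖ) ⟶ op B)
    (q : (op B : (X.Opens)ᵒᵖ) ⟶ op C)
    (r : (op A : (X.Opens)ᵒᵖ) ⟶ op C) (x : Γ(X, A)) :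
    X.presheaf.map q (X.presheaf.map p x) = X.presheaf.map r x := by
  rw [← ConcreteCategory.comp_apply, ← Functor.map_comp]
  exact res_eq_res _ _ x

lemma map_smul' {A B : X.Opens} (p : (op A : (X.Opens)ᵒᵖ) ⟶ op B) (r : Γ(X, A)) (x : Γ(M, A)) :
    M.presheaf.map p (r • x) = X.presheaf.map p r • M.presheaf.map p x :=
  M.map_smul p.unop r x

variable {U : X.Opens} (hU : IsAffineOpen U)

/-- The `Γ(X, U)`-action on sections of `M|_{Spec Γ(X, U)}` is the action through restriction. -/
lemma smul_restrict_fromSpec (V : (Spec Γ(X, U)).Opens) (r : Γ(X, U))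
    (x : Γ(M.restrict hU.fromSpec, V)) :
    (r • x : Γ(M.restrict hU.fromSpec, V)) =
      (show Γ(M, hU.fromSpec ''ᵁ V) from
        X.presheaf.map (homOfLE (fromSpec_image_le hU V)).op r •
          (show Γ(M, hU.fromSpec ''ᵁ V) from x)) := by
  rw [Scheme.Modules.smul_Spec_def, ← fromSpec_appIso_inv_res hU V r]
  rfl

lemma isLocalizing_restrict_fromSpec [M.IsQuasicoherent] :
    IsLocalizing (modulesSpecToSheaf.obj (M.restrict hU.fromSpec)) :=
  (isIso_fromTildeΓ_iff_isLocalizing _).mp inferInstance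

include hU in
lemma fromSpec_image_top : hU.fromSpec ''ᵁ ⊤ = U := by
  rw [Scheme.Hom.image_top_eq_opensRange, hU.opensRange_fromSpec]

include hU in
/-- **Existence** (EGA I 1.4.1 d1): a section of a quasi-coherent module over `D(f) ⊆ U`, `U`
affine, extends to `U` after multiplication by a power of `f`. -/
theorem exists_map_eq_pow_smul [M.IsQuasicoherent] (f : Γ(X, U)) (s : Γ(M, X.basicOpen f)) :
    ∃ (n : ℕ) (t : Γ(M, U)),
      M.presheaf.map (homOfLE (X.basicOpen_le f)).op t =
        (X.presheaf.map (homOfLE (X.basicOpen_le f)).op f) ^ n • s := by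
  have hloc := isLocalizing_restrict_fromSpec M hU f
  let D : (Spec Γ(X, U)).Opens := PrimeSpectrum.basicOpen f
  have e1 : hU.fromSpec ''ᵁ D = X.basicOpen f := hU.fromSpec_image_basicOpen f
  have e2 : hU.fromSpec ''ᵁ ⊤ = U := fromSpec_image_top hU
  obtain ⟨⟨t', ⟨_, n, rfl⟩⟩, h⟩ := IsLocalizedModule.surj (.powers f)
    ((modulesSpecToSheaf.obj (M.restrict hU.fromSpec)).obj.map D.leTop.op).hom
      (M.presheaf.map (eqToHom e1).op s)
  refine ⟨n, M.presheaf.map (eqToHom e2.symm).op t', ?_⟩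
  have hinj : Function.Injective (M.presheaf.map (eqToHom e1).op) :=
    (ConcreteCategory.bijective_of_isIso _).injective
  apply hinj
  have h1 : M.presheaf.map (eqToHom e1).op (M.presheaf.map (homOfLE (X.basicOpen_le f)).op
      (M.presheaf.map (eqToHom e2.symm).op t')) =
      M.presheaf.map (hU.fromSpec.opensFunctor.map D.leTop).op t' := by
    exact map_map_map M _ _ _ _ t'
  have h2 : M.presheaf.map (eqToHom e1).op
      ((X.presheaf.map (homOfLE (X.basicOpen_le f)).op f) ^ n • s) =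
      X.presheaf.map (homOfLE (fromSpec_image_le hU D)).op (f ^ n) •
        M.presheaf.map (eqToHom e1).op s := by
    rw [map_smul', ← map_pow, res_res _ _ (homOfLE (fromSpec_image_le hU D)).op]
  rw [h1, h2]
  exact h.symm.trans (smul_restrict_fromSpec M hU _ (f ^ n) _)

include hU in
/-- **Uniqueness** (EGA I 1.4.1 d2): a section of a quasi-coherent module over an affine open
`U` which vanishes on `D(f)` is killed by a power of `f`. -/
theorem exists_pow_smul_eq_zero [M.IsQuasicoherent] (f : Γ(X, U)) (t : Γ(M, U))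
    (ht : M.presheaf.map (homOfLE (X.basicOpen_le f)).op t = 0) : ∃ n : ℕ, f ^ n • t = 0 := by
  have hloc := isLocalizing_restrict_fromSpec M hU f
  let D : (Spec Γ(X, U)).Opens := PrimeSpectrum.basicOpen f
  have e1 : hU.fromSpec ''ᵁ D = X.basicOpen f := hU.fromSpec_image_basicOpen f
  have e2 : hU.fromSpec ''ᵁ ⊤ = U := fromSpec_image_top hU
  let t' : Γ(M, hU.fromSpec ''ᵁ ⊤) := M.presheaf.map (eqToHom e2).op t
  have h0 : ((modulesSpecToSheaf.obj (M.restrict hU.fromSpec)).obj.map D.leTop.op).hom t' = 0 := by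
    have : M.presheaf.map (hU.fromSpec.opensFunctor.map D.leTop).op t' =
        M.presheaf.map (eqToHom e1).op (M.presheaf.map (homOfLE (X.basicOpen_le f)).op t) :=
      (map_map M _ _ ((eqToHom e2).op ≫ (hU.fromSpec.opensFunctor.map D.leTop).op) t).trans
        (map_map M _ _ _ t).symm
    refine this.trans ?_
    rw [ht, map_zero]
    rfl
  obtain ⟨⟨_, n, rfl⟩, hn⟩ := (IsLocalizedModule.eq_zero_iff (.powers f) _).mp h0
  refine ⟨n, ?_⟩
  have hn' := (smul_restrict_fromSpec M hU ⊤ (f ^ n) t').symm.trans hn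
  have hinj : Function.Injective (M.presheaf.map (eqToHom e2).op) :=
    (ConcreteCategory.bijective_of_isIso _).injective
  apply hinj
  rw [map_smul', map_zero]
  refine Eq.trans ?_ hn'
  rw [res_eq_res (eqToHom e2).op (homOfLE (fromSpec_image_le hU ⊤)).op]

include hU in
/-- Variant of `exists_map_eq_pow_smul` for an open `V` known to be equal to `D(f)`. -/
theorem exists_map_eq_pow_smul_of_eq [M.IsQuasicoherent] (f : Γ(X, U)) {V : X.Opens}
    (hV : V = X.basicOpen f) (hVU : V ≤ U) (s : Γ(M, V)) :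
    ∃ (n : ℕ) (t : Γ(M, U)),
      M.presheaf.map (homOfLE hVU).op t = (X.presheaf.map (homOfLE hVU).op f) ^ n • s := by
  subst hV
  exact exists_map_eq_pow_smul M hU f s

include hU in
/-- Variant of `exists_pow_smul_eq_zero` for an open `V` known to be equal to `D(f)`. -/
theorem exists_pow_smul_eq_zero_of_eq [M.IsQuasicoherent] (f : Γ(X, U)) {V : X.Opens}
    (hV : V = X.basicOpen f) (hVU : V ≤ U) (t : Γ(M, U))
    (ht : M.presheaf.map (homOfLE hVU).op t = 0) : ∃ n : ℕ, f ^ n • t = 0 := by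
  subst hV
  exact exists_pow_smul_eq_zero M hU f t ht

/-- The restriction of `f` to `D(f)` is a unit. -/
lemma isUnit_res_basicOpen (f : Γ(X, U)) {V : X.Opens} (hV : V = X.basicOpen f) (hVU : V ≤ U) :
    IsUnit (X.presheaf.map (homOfLE hVU).op f) := by
  subst hV
  exact X.toRingedSpace.isUnit_res_basicOpen f

/-- Sections over `V ≤ U` as a `Γ(X, U)`-module (restriction of scalars). -/
@[reducible] noncomputable def sectionsModule {V : X.Opens} (hVU : V ≤ U) :
    Module Γ(X, U) Γ(M, V) :=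
  Module.compHom Γ(M, V) (X.presheaf.map (homOfLE hVU).op).hom

/-- The restriction map `Γ(M, U) → Γ(M, V)` as a `Γ(X, U)`-linear map. -/
noncomputable def resLinear {V : X.Opens} (hVU : V ≤ U) :
    letI := sectionsModule M hVU
    Γ(M, U) →ₗ[Γ(X, U)] Γ(M, V) :=
  letI := sectionsModule M hVU
  { toFun := fun x => M.presheaf.map (homOfLE hVU).op x
    map_add' := fun x y => map_add _ x y
    map_smul' := fun r x => map_smul' M (homOfLE hVU).op r x }

@[simp] lemma resLinear_apply {V : X.Opens} (hVU : V ≤ U) (x : Γ(M, U)) :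
    letI := sectionsModule M hVU
    resLinear M hVU x = M.presheaf.map (homOfLE hVU).op x := rfl

include hU in
/-- **Quasi-coherent modules localize**: for `M` quasi-coherent, `U` affine and `V = D(f) ⊆ U`,
the restriction `Γ(M, U) → Γ(M, V)` is the localization of the `Γ(X, U)`-module `Γ(M, U)` at
`f`. -/
theorem isLocalizedModule_resLinear [M.IsQuasicoherent] (f : Γ(X, U)) {V : X.Opens}
    (hV : V = X.basicOpen f) (hVU : V ≤ U) :
    letI := sectionsModule M hVU
    IsLocalizedModule.Away f (resLinear M hVU) := by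
  let _ := sectionsModule M hVU
  refine IsLocalizedModule.Away.mk_of_addCommGroup ?_ ?_ ?_
  · obtain ⟨u, hu⟩ := isUnit_res_basicOpen f hV hVU
    rw [Module.End.isUnit_iff]
    refine ⟨fun x y hxy => ?_, fun y => ⟨(↑u⁻¹ : Γ(X, V)) • y, ?_⟩⟩
    · have h1 : (X.presheaf.map (homOfLE hVU).op f) • x = (X.presheaf.map (homOfLE hVU).op f) • y :=
        hxy
      have h2 := congrArg (fun z => (↑u⁻¹ : Γ(X, V)) • z) h1
      simpa [← hu, smul_smul] using h2
    · change (X.presheaf.map (homOfLE hVU).op f) • ((↑u⁻¹ : Γ(X, V)) • y) = y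
      rw [← hu, smul_smul, Units.mul_inv, one_smul]
  · intro x
    obtain ⟨n, t, ht⟩ := exists_map_eq_pow_smul_of_eq M hU f hV hVU x
    refine ⟨n, t, ?_⟩
    change (X.presheaf.map (homOfLE hVU).op (f ^ n)) • x = M.presheaf.map (homOfLE hVU).op t
    rw [map_pow, ht]
  · intro x hx
    exact exists_pow_smul_eq_zero_of_eq M hU f hV hVU x hx

end

end Fermat.Agent.S25.DICT

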