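/-
S25 / SM3a (helper5771): `toGlued` — the glued module of sections of a quasi-coherent module on
a scheme with a two-chart atlas.

* `Atlas X 𝔹`: open immersions `φ₁ : Spec B₁ ⟶ X`, `φ₂ : Spec B₂ ⟶ X` agreeing on `Spec B₁₂`
  (`Spec r₁ ≫ φ₁ = Spec r₂ ≫ φ₂ =: φ₁₂`), covering `X`, with `range φ₁ ∩ range φ₂ = range φ₁₂`
  (same setting as helper4211's `ofGlued` plan, notes/S25_SM3b_helper4211.md).
* generic chart lemmas: `chartRes`, `smul_restrict_chart`, `chartRes_comp`, `resChart`,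
  `resChart_smul`, `exists_pow_smul_eq_resChart`, `exists_pow_smul_eq_zero_of_resChart`,
  `chartMap`, `chartEquiv`, `resChart_chartMap`.
* `Atlas.toGlued 𝒜 M : GluedModule 𝔹` for `M` quasi-coherent, with
  `N₁ = Γ(M.restrict φ₁, ⊤)`, `N₂ = Γ(M.restrict φ₂, ⊤)`, `N₁₂ = Γ(M.restrict φ₁₂, ⊤)`.
* `Atlas.toGluedIso 𝒜 e : GluedModule.Iso (𝒜.toGlued M) (𝒜.toGlued M')` for `e : M ≅ M'`.

Imports: Mathlib, `S25/Core.lean` (helper5425, verbatim), `S25/QcLoc5771.lean`.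
-/
import Fermat.Agent.S25.Core
import Fermat.Agent.S25.DICT.QcLoc

set_option autoImplicit false
set_option linter.style.haveILetI false

universe u

open CategoryTheory AlgebraicGeometry TopologicalSpace Opposite

namespace Fermat.Agent.S25.DICT

lemma image_congr {X Y : Scheme.{u}} {f g : X ⟶ Y} [IsOpenImmersion f] [IsOpenImmersion g]
    (h : f = g) (U : X.Opens) : f ''ᵁ U = g ''ᵁ U := by
  subst h; rfl

/-- Mathlib's `A`-module structure on the sections of a module over `Spec A` (named, so that it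
can be used for `A = CommRingCat.of B`). -/
@[reducible] noncomputable def chartModule {A : CommRingCat.{u}} (M : (Spec A).Modules)
    (U : (Spec A).Opens) : Module A Γ(M, U) := inferInstance

section Chart

variable {X : Scheme.{u}} {A : CommRingCat.{u}} (φ : Spec A ⟶ X) [IsOpenImmersion φ]

/-- The ring map `A → Γ(X, φ(V))` attached to a chart `φ : Spec A ⟶ X`. -/
noncomputable def chartRes (V : (Spec A).Opens) : A ⟶ Γ(X, φ ''ᵁ V) :=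
  (Scheme.ΓSpecIso A).inv ≫ (Spec A).presheaf.map V.leTop.op ≫ (φ.appIso V).inv

/-- The `A`-action on sections of `M|_{Spec A}` is the action through `chartRes`. -/
lemma smul_restrict_chart (M : X.Modules) (V : (Spec A).Opens) (a : A)
    (x : Γ(M.restrict φ, V)) :
    (a • x : Γ(M.restrict φ, V)) =
      (show Γ(M, φ ''ᵁ V) from chartRes φ V a • (show Γ(M, φ ''ᵁ V) from x)) := by
  rw [Scheme.Modules.smul_Spec_def]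
  rfl

variable {B : CommRingCat.{u}} (r : A ⟶ B) (ψ : Spec B ⟶ X) [IsOpenImmersion ψ]
  (hψ : ψ = Spec.map r ≫ φ)

include hψ in
lemma image_le_of_comp (V : (Spec A).Opens) (V' : (Spec B).Opens)
    (hV : V' ≤ Spec.map r ⁻¹ᵁ V) : ψ ''ᵁ V' ≤ φ ''ᵁ V := by
  subst hψ
  rintro _ ⟨x, hx, rfl⟩
  exact ⟨Spec.map r x, hV hx, by simp⟩

lemma chartRes_comp_hom (V : (Spec A).Opens) (V' : (Spec B).Opens)
    (hV : V' ≤ Spec.map r ⁻¹ᵁ V) :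
    chartRes φ V ≫ X.presheaf.map (homOfLE (image_le_of_comp φ r ψ hψ V V' hV)).op =
      r ≫ chartRes ψ V' := by
  subst hψ
  rw [← cancel_mono ((Spec.map r ≫ φ).appIso V').hom]
  simp only [chartRes, Category.assoc, Iso.inv_hom_id, Category.comp_id]
  rw [Scheme.Hom.appIso_hom', Scheme.Hom.map_appLE]
  have e₁ : V ≤ φ ⁻¹ᵁ (φ ''ᵁ V) := by rw [Scheme.Hom.preimage_image_eq]
  rw [← Scheme.Hom.appLE_comp_appLE (Spec.map r) φ (φ ''ᵁ V) V V' e₁ hV]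
  rw [Scheme.Hom.appIso_inv_appLE_assoc, Scheme.Hom.map_appLE, Scheme.Hom.map_appLE,
    Scheme.Hom.appLE, ← Category.assoc r, Scheme.ΓSpecIso_inv_naturality, Category.assoc]
  rfl

lemma chartRes_comp (V : (Spec A).Opens) (V' : (Spec B).Opens)
    (hV : V' ≤ Spec.map r ⁻¹ᵁ V) (a : A) :
    X.presheaf.map (homOfLE (image_le_of_comp φ r ψ hψ V V' hV)).op (chartRes φ V a) =
      chartRes ψ V' (r a) :=
  congr($(chartRes_comp_hom φ r ψ hψ V V' hV) a)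

section Pair

variable (M : X.Modules)

/-- Restriction of sections from the chart `φ` to the smaller chart `ψ = Spec r ≫ φ`. -/
noncomputable def resChart : Γ(M.restrict φ, ⊤) →+ Γ(M.restrict ψ, ⊤) :=
  (M.presheaf.map (homOfLE (image_le_of_comp φ r ψ hψ ⊤ ⊤ le_top)).op).hom

lemma resChart_apply (x : Γ(M.restrict φ, ⊤)) :
    resChart φ r ψ hψ M x =
      M.presheaf.map (homOfLE (image_le_of_comp φ r ψ hψ ⊤ ⊤ le_top)).op x := rfl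

/-- The restriction between charts is semilinear along `r`. -/
lemma resChart_smul (a : A) (x : Γ(M.restrict φ, ⊤)) :
    resChart φ r ψ hψ M (a • x) = r a • resChart φ r ψ hψ M x := by
  rw [smul_restrict_chart ψ M ⊤ (r a), ← chartRes_comp φ r ψ hψ ⊤ ⊤ le_top a,
    resChart_apply, smul_restrict_chart φ M ⊤ a]
  exact map_smul' M _ _ _

variable (f : A) (hD : ψ ''ᵁ ⊤ = φ ''ᵁ (PrimeSpectrum.basicOpen f))

include hψ hD in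
lemma top_le_preimage_basicOpen :
    (⊤ : (Spec B).Opens) ≤ Spec.map r ⁻¹ᵁ (PrimeSpectrum.basicOpen f) := by
  subst hψ
  intro x _
  have hx : (Spec.map r ≫ φ) x ∈ (Spec.map r ≫ φ) ''ᵁ ⊤ := ⟨x, trivial, rfl⟩
  rw [hD] at hx
  obtain ⟨d, hd, hdx⟩ := hx
  have : d = Spec.map r x := φ.isOpenEmbedding.injective (by simpa using hdx)
  subst this
  exact hd

include hD in
/-- Sections over the smaller chart extend to the bigger chart after multiplication by a power of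
`f`. -/
theorem exists_pow_smul_eq_resChart [M.IsQuasicoherent] (y : Γ(M.restrict ψ, ⊤)) :
    ∃ (n : ℕ) (x : Γ(M.restrict φ, ⊤)), r f ^ n • y = resChart φ r ψ hψ M x := by
  let D : (Spec A).Opens := PrimeSpectrum.basicOpen f
  have hloc : IsLocalizedModule (.powers f)
      ((modulesSpecToSheaf.obj (M.restrict φ)).obj.map D.leTop.op).hom :=
    (isIso_fromTildeΓ_iff_isLocalizing _).mp inferInstance f
  have hV : (⊤ : (Spec B).Opens) ≤ Spec.map r ⁻¹ᵁ D := top_le_preimage_basicOpen φ r ψ hψ f hD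
  obtain ⟨⟨x, ⟨_, n, rfl⟩⟩, h⟩ := IsLocalizedModule.surj (.powers f)
    ((modulesSpecToSheaf.obj (M.restrict φ)).obj.map D.leTop.op).hom
      (M.presheaf.map (eqToHom hD.symm).op y)
  refine ⟨n, x, ?_⟩
  have hinj : Function.Injective (M.presheaf.map (eqToHom hD.symm).op) :=
    (ConcreteCategory.bijective_of_isIso _).injective
  apply hinj
  have h1 : M.presheaf.map (eqToHom hD.symm).op (resChart φ r ψ hψ M x) =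
      M.presheaf.map (φ.opensFunctor.map D.leTop).op x := map_map M _ _ _ x
  have h2 : M.presheaf.map (eqToHom hD.symm).op (r f ^ n • y) =
      chartRes φ D (f ^ n) • M.presheaf.map (eqToHom hD.symm).op y := by
    rw [← map_pow, smul_restrict_chart ψ M ⊤ (r (f ^ n)), ← chartRes_comp φ r ψ hψ D ⊤ hV (f ^ n)]
    refine (map_smul' M _ _ _).trans ?_
    rw [res_res _ _ (𝟙 _)]
    simp
  rw [h1, h2]
  exact (smul_restrict_chart φ M D (f ^ n) _).symm.trans h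

include hD in
/-- Sections over the bigger chart vanishing on the smaller chart are `f`-power torsion. -/
theorem exists_pow_smul_eq_zero_of_resChart [M.IsQuasicoherent] (x : Γ(M.restrict φ, ⊤))
    (hx : resChart φ r ψ hψ M x = 0) : ∃ n : ℕ, f ^ n • x = 0 := by
  let D : (Spec A).Opens := PrimeSpectrum.basicOpen f
  have hloc : IsLocalizedModule (.powers f)
      ((modulesSpecToSheaf.obj (M.restrict φ)).obj.map D.leTop.op).hom :=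
    (isIso_fromTildeΓ_iff_isLocalizing _).mp inferInstance f
  have h0 : ((modulesSpecToSheaf.obj (M.restrict φ)).obj.map D.leTop.op).hom x = 0 := by
    have h1 : M.presheaf.map (eqToHom hD.symm).op (resChart φ r ψ hψ M x) =
        M.presheaf.map (φ.opensFunctor.map D.leTop).op x := map_map M _ _ _ x
    refine h1.symm.trans ?_
    rw [hx]
    exact map_zero _
  obtain ⟨⟨_, n, rfl⟩, hn⟩ := (IsLocalizedModule.eq_zero_iff (.powers f) _).mp h0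
  exact ⟨n, hn⟩

end Pair

section ChartMap

variable {M M' M'' : X.Modules}

/-- A morphism of modules induces an `A`-linear map on the sections over a chart. -/
noncomputable def chartMap (α : M ⟶ M') : Γ(M.restrict φ, ⊤) →ₗ[A] Γ(M'.restrict φ, ⊤) where
  toFun x := α.app (φ ''ᵁ ⊤) x
  map_add' x y := map_add _ x y
  map_smul' a x := by
    rw [smul_restrict_chart φ M ⊤ a x]
    exact (Scheme.Modules.Hom.app_smul α _ _).trans (smul_restrict_chart φ M' ⊤ a _).symm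

lemma chartMap_apply (α : M ⟶ M') (x : Γ(M.restrict φ, ⊤)) :
    chartMap φ α x = α.app (φ ''ᵁ ⊤) x := rfl

@[simp] lemma chartMap_id (x : Γ(M.restrict φ, ⊤)) : chartMap φ (𝟙 M) x = x := rfl

lemma chartMap_comp (α : M ⟶ M') (β : M' ⟶ M'') (x : Γ(M.restrict φ, ⊤)) :
    chartMap φ (α ≫ β) x = chartMap φ β (chartMap φ α x) := rfl

lemma app_naturality (α : M ⟶ M') {U V : X.Opens} (i : (op U : (X.Opens)ᵒᵖ) ⟶ op V)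
    (x : Γ(M, U)) : M'.presheaf.map i (α.app U x) = α.app V (M.presheaf.map i x) :=
  (congr($(α.mapPresheaf.naturality i) x)).symm

lemma resChart_chartMap (α : M ⟶ M') (x : Γ(M.restrict φ, ⊤)) :
    resChart φ r ψ hψ M' (chartMap φ α x) = chartMap ψ α (resChart φ r ψ hψ M x) :=
  app_naturality α _ x

/-- An isomorphism of modules induces an `A`-linear equivalence on the sections over a chart. -/
noncomputable def chartEquiv (e : M ≅ M') : Γ(M.restrict φ, ⊤) ≃ₗ[A] Γ(M'.restrict φ, ⊤) :=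
  LinearEquiv.ofLinearMap (chartMap φ e.hom) (chartMap φ e.inv)
    (LinearMap.ext fun x => by
      rw [LinearMap.comp_apply, ← chartMap_comp, e.inv_hom_id]; rfl)
    (LinearMap.ext fun x => by
      rw [LinearMap.comp_apply, ← chartMap_comp, e.hom_inv_id]; rfl)

lemma chartEquiv_apply (e : M ≅ M') (x : Γ(M.restrict φ, ⊤)) :
    chartEquiv φ e x = chartMap φ e.hom x := rfl

end ChartMap

end Chart

section Atlas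

variable {R : Type u} [CommRing R]

/-- `B₁₂ = B₁[1/f]` as a localization. -/
lemma isLocalization_r₁ (𝔹 : TwoChart R) :
    letI := (𝔹.r₁ : 𝔹.B₁ →+* 𝔹.B₁₂).toAlgebra
    IsLocalization.Away 𝔹.f 𝔹.B₁₂ := by
  let _ := (𝔹.r₁ : 𝔹.B₁ →+* 𝔹.B₁₂).toAlgebra
  have hu : IsUnit (𝔹.r₁ 𝔹.f) := IsUnit.of_mul_eq_one _ 𝔹.fg
  refine ⟨?_, ?_, ?_⟩
  · rintro ⟨_, n, rfl⟩
    change IsUnit (𝔹.r₁ (𝔹.f ^ n))
    rw [map_pow]
    exact hu.pow n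
  · intro z
    obtain ⟨a, n, rfl⟩ := 𝔹.surj₁ z
    refine ⟨(a, ⟨𝔹.f ^ n, n, rfl⟩), ?_⟩
    change 𝔹.r₁ a * 𝔹.r₂ 𝔹.g ^ n * 𝔹.r₁ (𝔹.f ^ n) = 𝔹.r₁ a
    rw [map_pow, mul_assoc, ← mul_pow, mul_comm (𝔹.r₂ 𝔹.g), 𝔹.fg, one_pow, mul_one]
  · intro x y hxy
    have h0 : 𝔹.r₁ (x - y) = 0 := by
      rw [map_sub]; exact sub_eq_zero.mpr hxy
    obtain ⟨n, hn⟩ := 𝔹.ker₁ _ h0
    refine ⟨⟨𝔹.f ^ n, n, rfl⟩, ?_⟩
    change 𝔹.f ^ n * x = 𝔹.f ^ n * y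
    rw [mul_sub] at hn
    exact sub_eq_zero.mp hn

/-- `B₁₂ = B₂[1/g]` as a localization. -/
lemma isLocalization_r₂ (𝔹 : TwoChart R) :
    letI := (𝔹.r₂ : 𝔹.B₂ →+* 𝔹.B₁₂).toAlgebra
    IsLocalization.Away 𝔹.g 𝔹.B₁₂ := by
  let _ := (𝔹.r₂ : 𝔹.B₂ →+* 𝔹.B₁₂).toAlgebra
  have hu : IsUnit (𝔹.r₂ 𝔹.g) := IsUnit.of_mul_eq_one _ ((mul_comm _ _).trans 𝔹.fg)
  refine ⟨?_, ?_, ?_⟩
  · rintro ⟨_, n, rfl⟩
    change IsUnit (𝔹.r₂ (𝔹.g ^ n))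
    rw [map_pow]
    exact hu.pow n
  · intro z
    obtain ⟨a, n, rfl⟩ := 𝔹.surj₂ z
    refine ⟨(a, ⟨𝔹.g ^ n, n, rfl⟩), ?_⟩
    change 𝔹.r₂ a * 𝔹.r₁ 𝔹.f ^ n * 𝔹.r₂ (𝔹.g ^ n) = 𝔹.r₂ a
    rw [map_pow, mul_assoc, ← mul_pow, 𝔹.fg, one_pow, mul_one]
  · intro x y hxy
    have h0 : 𝔹.r₂ (x - y) = 0 := by
      rw [map_sub]; exact sub_eq_zero.mpr hxy
    obtain ⟨n, hn⟩ := 𝔹.ker₂ _ h0
    refine ⟨⟨𝔹.g ^ n, n, rfl⟩, ?_⟩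
    change 𝔹.g ^ n * x = 𝔹.g ^ n * y
    rw [mul_sub] at hn
    exact sub_eq_zero.mp hn

/-- The ring map `r₁` in `CommRingCat`. -/
abbrev ρ₁ (𝔹 : TwoChart R) : CommRingCat.of 𝔹.B₁ ⟶ CommRingCat.of 𝔹.B₁₂ :=
  CommRingCat.ofHom (𝔹.r₁ : 𝔹.B₁ →+* 𝔹.B₁₂)

/-- The ring map `r₂` in `CommRingCat`. -/
abbrev ρ₂ (𝔹 : TwoChart R) : CommRingCat.of 𝔹.B₂ ⟶ CommRingCat.of 𝔹.B₁₂ :=
  CommRingCat.ofHom (𝔹.r₂ : 𝔹.B₂ →+* 𝔹.B₁₂)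

instance isOpenImmersion_ρ₁ (𝔹 : TwoChart R) : IsOpenImmersion (Spec.map (ρ₁ 𝔹)) := by
  letI := (𝔹.r₁ : 𝔹.B₁ →+* 𝔹.B₁₂).toAlgebra
  haveI := isLocalization_r₁ 𝔹
  exact IsOpenImmersion.of_isLocalization 𝔹.f

instance isOpenImmersion_ρ₂ (𝔹 : TwoChart R) : IsOpenImmersion (Spec.map (ρ₂ 𝔹)) := by
  letI := (𝔹.r₂ : 𝔹.B₂ →+* 𝔹.B₁₂).toAlgebra
  haveI := isLocalization_r₂ 𝔹
  exact IsOpenImmersion.of_isLocalization 𝔹.g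

lemma opensRange_ρ₁ (𝔹 : TwoChart R) :
    (Spec.map (ρ₁ 𝔹)).opensRange = PrimeSpectrum.basicOpen 𝔹.f := by
  letI := (𝔹.r₁ : 𝔹.B₁ →+* 𝔹.B₁₂).toAlgebra
  haveI := isLocalization_r₁ 𝔹
  exact Opens.ext (PrimeSpectrum.localization_away_comap_range 𝔹.B₁₂ 𝔹.f)

lemma opensRange_ρ₂ (𝔹 : TwoChart R) :
    (Spec.map (ρ₂ 𝔹)).opensRange = PrimeSpectrum.basicOpen 𝔹.g := by
  letI := (𝔹.r₂ : 𝔹.B₂ →+* 𝔹.B₁₂).toAlgebra
  haveI := isLocalization_r₂ 𝔹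
  exact Opens.ext (PrimeSpectrum.localization_away_comap_range 𝔹.B₁₂ 𝔹.g)

/-- A two-chart atlas on a scheme `X`, modelled on the two-chart `𝔹`: open immersions
`φ₁ : Spec B₁ ⟶ X`, `φ₂ : Spec B₂ ⟶ X` which agree on `Spec B₁₂`, cover `X`, and whose
intersection is the image of `Spec B₁₂`. -/
structure Atlas (X : Scheme.{u}) (𝔹 : TwoChart R) where
  φ₁ : Spec (CommRingCat.of 𝔹.B₁) ⟶ X
  φ₂ : Spec (CommRingCat.of 𝔹.B₂) ⟶ X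
  isOpenImmersion₁ : IsOpenImmersion φ₁
  isOpenImmersion₂ : IsOpenImmersion φ₂
  comm : Spec.map (ρ₁ 𝔹) ≫ φ₁ = Spec.map (ρ₂ 𝔹) ≫ φ₂
  cover : Set.range φ₁ ∪ Set.range φ₂ = Set.univ
  inter : Set.range φ₁ ∩ Set.range φ₂ = Set.range (Spec.map (ρ₁ 𝔹) ≫ φ₁)

attribute [instance] Atlas.isOpenImmersion₁ Atlas.isOpenImmersion₂

namespace Atlas

variable {X : Scheme.{u}} {𝔹 : TwoChart R} (𝒜 : Atlas X 𝔹)

/-- The chart of the intersection. -/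
noncomputable def φ₁₂ : Spec (CommRingCat.of 𝔹.B₁₂) ⟶ X := Spec.map (ρ₁ 𝔹) ≫ 𝒜.φ₁

instance : IsOpenImmersion 𝒜.φ₁₂ := by delta φ₁₂; infer_instance

lemma φ₁₂_eq₁ : 𝒜.φ₁₂ = Spec.map (ρ₁ 𝔹) ≫ 𝒜.φ₁ := rfl

lemma φ₁₂_eq₂ : 𝒜.φ₁₂ = Spec.map (ρ₂ 𝔹) ≫ 𝒜.φ₂ := 𝒜.comm

lemma φ₁₂_image_top₁ : 𝒜.φ₁₂ ''ᵁ ⊤ = 𝒜.φ₁ ''ᵁ (PrimeSpectrum.basicOpen 𝔹.f) := by
  have h := Scheme.Hom.comp_image (Spec.map (ρ₁ 𝔹)) 𝒜.φ₁ ⊤
  rw [Scheme.Hom.image_top_eq_opensRange (Spec.map (ρ₁ 𝔹)), opensRange_ρ₁] at h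
  exact h

lemma φ₁₂_image_top₂ : 𝒜.φ₁₂ ''ᵁ ⊤ = 𝒜.φ₂ ''ᵁ (PrimeSpectrum.basicOpen 𝔹.g) := by
  have h := Scheme.Hom.comp_image (Spec.map (ρ₂ 𝔹)) 𝒜.φ₂ ⊤
  rw [Scheme.Hom.image_top_eq_opensRange (Spec.map (ρ₂ 𝔹)), opensRange_ρ₂] at h
  exact (image_congr 𝒜.φ₁₂_eq₂ ⊤).trans h

section ToGlued

variable (M : X.Modules)

/-- Sections of `M` over the first chart, as a `B₁`-module. -/
def Sec₁ : Type u := Γ(M.restrict 𝒜.φ₁, ⊤)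

/-- Sections of `M` over the second chart, as a `B₂`-module. -/
def Sec₂ : Type u := Γ(M.restrict 𝒜.φ₂, ⊤)

/-- Sections of `M` over the intersection chart, as a `B₁₂`-module. -/
def Sec₁₂ : Type u := Γ(M.restrict 𝒜.φ₁₂, ⊤)

noncomputable instance : AddCommGroup (𝒜.Sec₁ M) :=
  inferInstanceAs (AddCommGroup Γ(M.restrict 𝒜.φ₁, ⊤))
noncomputable instance : AddCommGroup (𝒜.Sec₂ M) :=
  inferInstanceAs (AddCommGroup Γ(M.restrict 𝒜.φ₂, ⊤))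
noncomputable instance : AddCommGroup (𝒜.Sec₁₂ M) :=
  inferInstanceAs (AddCommGroup Γ(M.restrict 𝒜.φ₁₂, ⊤))

noncomputable instance : Module 𝔹.B₁ (𝒜.Sec₁ M) :=
  chartModule (A := CommRingCat.of 𝔹.B₁) (M.restrict 𝒜.φ₁) ⊤
noncomputable instance : Module 𝔹.B₂ (𝒜.Sec₂ M) :=
  chartModule (A := CommRingCat.of 𝔹.B₂) (M.restrict 𝒜.φ₂) ⊤
noncomputable instance : Module 𝔹.B₁₂ (𝒜.Sec₁₂ M) :=
  chartModule (A := CommRingCat.of 𝔹.B₁₂) (M.restrict 𝒜.φ₁₂) ⊤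

noncomputable instance : Module R (𝒜.Sec₁ M) := Module.compHom _ (algebraMap R 𝔹.B₁)
noncomputable instance : Module R (𝒜.Sec₂ M) := Module.compHom _ (algebraMap R 𝔹.B₂)
noncomputable instance : Module R (𝒜.Sec₁₂ M) := Module.compHom _ (algebraMap R 𝔹.B₁₂)

instance : IsScalarTower R 𝔹.B₁ (𝒜.Sec₁ M) := .of_algebraMap_smul fun _ _ ↦ rfl
instance : IsScalarTower R 𝔹.B₂ (𝒜.Sec₂ M) := .of_algebraMap_smul fun _ _ ↦ rfl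
instance : IsScalarTower R 𝔹.B₁₂ (𝒜.Sec₁₂ M) := .of_algebraMap_smul fun _ _ ↦ rfl

/-- The restriction `Sec₁ → Sec₁₂` as an additive map. -/
noncomputable def res₁ : 𝒜.Sec₁ M →+ 𝒜.Sec₁₂ M :=
  resChart 𝒜.φ₁ (ρ₁ 𝔹) 𝒜.φ₁₂ 𝒜.φ₁₂_eq₁ M

/-- The restriction `Sec₂ → Sec₁₂` as an additive map. -/
noncomputable def res₂ : 𝒜.Sec₂ M →+ 𝒜.Sec₁₂ M :=
  resChart 𝒜.φ₂ (ρ₂ 𝔹) 𝒜.φ₁₂ 𝒜.φ₁₂_eq₂ M

lemma res₁_smul (b : 𝔹.B₁) (x : 𝒜.Sec₁ M) : 𝒜.res₁ M (b • x) = 𝔹.r₁ b • 𝒜.res₁ M x :=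
  resChart_smul 𝒜.φ₁ (ρ₁ 𝔹) 𝒜.φ₁₂ 𝒜.φ₁₂_eq₁ M b x

lemma res₂_smul (b : 𝔹.B₂) (x : 𝒜.Sec₂ M) : 𝒜.res₂ M (b • x) = 𝔹.r₂ b • 𝒜.res₂ M x :=
  resChart_smul 𝒜.φ₂ (ρ₂ 𝔹) 𝒜.φ₁₂ 𝒜.φ₁₂_eq₂ M b x

/-- The restriction `Sec₁ → Sec₁₂`. -/
noncomputable def ι₁ : 𝒜.Sec₁ M →ₗ[R] 𝒜.Sec₁₂ M where
  toFun x := 𝒜.res₁ M x
  map_add' x y := map_add _ x y
  map_smul' c x := by
    change 𝒜.res₁ M (algebraMap R 𝔹.B₁ c • x) = algebraMap R 𝔹.B₁₂ c • 𝒜.res₁ M x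
    rw [← 𝔹.r₁.commutes c]
    exact 𝒜.res₁_smul M _ x

/-- The restriction `Sec₂ → Sec₁₂`. -/
noncomputable def ι₂ : 𝒜.Sec₂ M →ₗ[R] 𝒜.Sec₁₂ M where
  toFun x := 𝒜.res₂ M x
  map_add' x y := map_add _ x y
  map_smul' c x := by
    change 𝒜.res₂ M (algebraMap R 𝔹.B₂ c • x) = algebraMap R 𝔹.B₁₂ c • 𝒜.res₂ M x
    rw [← 𝔹.r₂.commutes c]
    exact 𝒜.res₂_smul M _ x

lemma ι₁_smul (b : 𝔹.B₁) (x : 𝒜.Sec₁ M) : 𝒜.ι₁ M (b • x) = 𝔹.r₁ b • 𝒜.ι₁ M x :=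
  𝒜.res₁_smul M b x

lemma ι₂_smul (b : 𝔹.B₂) (x : 𝒜.Sec₂ M) : 𝒜.ι₂ M (b • x) = 𝔹.r₂ b • 𝒜.ι₂ M x :=
  𝒜.res₂_smul M b x

lemma ι₁_surj [M.IsQuasicoherent] (y : 𝒜.Sec₁₂ M) :
    ∃ (x : 𝒜.Sec₁ M) (m : ℕ), y = 𝔹.r₂ 𝔹.g ^ m • 𝒜.ι₁ M x := by
  obtain ⟨m, x, h⟩ := exists_pow_smul_eq_resChart 𝒜.φ₁ (ρ₁ 𝔹) 𝒜.φ₁₂ 𝒜.φ₁₂_eq₁ M 𝔹.f
    𝒜.φ₁₂_image_top₁ y
  refine ⟨x, m, ?_⟩
  have h' : 𝔹.r₁ 𝔹.f ^ m • y = 𝒜.ι₁ M x := h
  rw [← h', smul_smul, ← mul_pow, mul_comm, 𝔹.fg, one_pow, one_smul]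

lemma ι₂_surj [M.IsQuasicoherent] (y : 𝒜.Sec₁₂ M) :
    ∃ (x : 𝒜.Sec₂ M) (m : ℕ), y = 𝔹.r₁ 𝔹.f ^ m • 𝒜.ι₂ M x := by
  obtain ⟨m, x, h⟩ := exists_pow_smul_eq_resChart 𝒜.φ₂ (ρ₂ 𝔹) 𝒜.φ₁₂ 𝒜.φ₁₂_eq₂ M 𝔹.g
    𝒜.φ₁₂_image_top₂ y
  refine ⟨x, m, ?_⟩
  have h' : 𝔹.r₂ 𝔹.g ^ m • y = 𝒜.ι₂ M x := h
  rw [← h', smul_smul, ← mul_pow, 𝔹.fg, one_pow, one_smul]

lemma ι₁_ker [M.IsQuasicoherent] (x : 𝒜.Sec₁ M) (hx : 𝒜.ι₁ M x = 0) :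
    ∃ m : ℕ, 𝔹.f ^ m • x = 0 :=
  exists_pow_smul_eq_zero_of_resChart 𝒜.φ₁ (ρ₁ 𝔹) 𝒜.φ₁₂ 𝒜.φ₁₂_eq₁ M 𝔹.f 𝒜.φ₁₂_image_top₁ x hx

lemma ι₂_ker [M.IsQuasicoherent] (x : 𝒜.Sec₂ M) (hx : 𝒜.ι₂ M x = 0) :
    ∃ m : ℕ, 𝔹.g ^ m • x = 0 :=
  exists_pow_smul_eq_zero_of_resChart 𝒜.φ₂ (ρ₂ 𝔹) 𝒜.φ₁₂ 𝒜.φ₁₂_eq₂ M 𝔹.g 𝒜.φ₁₂_image_top₂ x hx

/-- **`toGlued`**: the glued module of sections of a quasi-coherent module on a scheme with a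
two-chart atlas. -/
noncomputable def toGlued [M.IsQuasicoherent] : GluedModule 𝔹 where
  N₁ := 𝒜.Sec₁ M
  N₂ := 𝒜.Sec₂ M
  N₁₂ := 𝒜.Sec₁₂ M
  ι₁ := 𝒜.ι₁ M
  ι₂ := 𝒜.ι₂ M
  ι₁_smul := 𝒜.ι₁_smul M
  ι₂_smul := 𝒜.ι₂_smul M
  surj₁ := 𝒜.ι₁_surj M
  ker₁ := 𝒜.ι₁_ker M
  surj₂ := 𝒜.ι₂_surj M
  ker₂ := 𝒜.ι₂_ker M

/-- An isomorphism of quasi-coherent modules induces an isomorphism of glued modules. -/
noncomputable def toGluedIso {M M' : X.Modules} [M.IsQuasicoherent] [M'.IsQuasicoherent]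
    (e : M ≅ M') : GluedModule.Iso (𝒜.toGlued M) (𝒜.toGlued M') where
  e₁ := chartEquiv (A := CommRingCat.of 𝔹.B₁) 𝒜.φ₁ e
  e₂ := chartEquiv (A := CommRingCat.of 𝔹.B₂) 𝒜.φ₂ e
  e₁₂ := chartEquiv (A := CommRingCat.of 𝔹.B₁₂) 𝒜.φ₁₂ e
  comm₁ x := (resChart_chartMap 𝒜.φ₁ (ρ₁ 𝔹) 𝒜.φ₁₂ 𝒜.φ₁₂_eq₁ e.hom x).symm
  comm₂ x := (resChart_chartMap 𝒜.φ₂ (ρ₂ 𝔹) 𝒜.φ₁₂ 𝒜.φ₁₂_eq₂ e.hom x).symm

end ToGlued

end Atlas

end Atlas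

end Fermat.Agent.S25.DICT
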