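/-
S25 package DICT -- PLAN (sub-skeleton).  Acting plan by helper5590 (slot DICT member).
`Corr` is FIXED here; the stub `exists_dictionary` is derived from the ten sub-lemmas P1-P10
below (exact statements, `sorry` bodies).  Everything is on top of helper5771's
`Atlas`/`toGlued` (copied verbatim into `DICT/QcLoc.lean`, `DICT/ToGlued.lean`, namespace renamed)
and `DICT/UnivBC.lean` (helper5590).
-/
import Fermat.Agent.S25.BC
import Fermat.Agent.S25.DICT.AtlasDefs
import Fermat.Agent.S25.DICT.H5590.PointPullback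
import Fermat.Agent.S25.DICT.H5590.LineBundle
import Fermat.Agent.S25.DICT.H5590.OfGluedAdapter
import Fermat.Agent.S25.DICT.H5688.EndRigid
import Fermat.Agent.S25.DICT.H5771.FamAtlas
import Fermat.Agent.S25.DICT.H7710.P6
import Fermat.Agent.S25.DICT.H2050.IsBCToGlued
import Fermat.Agent.S25.DICT.H8090.Unit

set_option autoImplicit false
set_option linter.style.haveILetI false

universe u

namespace Fermat.Agent.S25.DICT

open CategoryTheory CategoryTheory.Limits AlgebraicGeometry AlgebraicGeometry.RelPicard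
  NeronModelInfra GoodReductionJacobian

/-! ## The family atlas (P1) -/

/-- **P1** (DONE: helper5771 `DICT/H5771/FamAtlas.lean`) (family atlas; pieces: helper6690 `ChartAtlas`, helper3350 `FamChart`, helper1790,
helper9670).  `φ_i : Spec (R ⊗[k] A_i) ⟶ pullback c (tR k R)` is the open immersion onto
`fst ⁻¹ U_i` induced by `e_i`. -/
theorem exists_familyAtlas {k : Type u} [Field k] {C : Scheme.{u}}
    (c : C ⟶ Spec (CommRingCat.of k)) (ε : SchemeHomOver (𝟙 (Spec (CommRingCat.of k))) c)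
    (pres : Presentation c ε) : Nonempty (FamilyAtlas c ε pres.𝒞) :=
  H5771.exists_familyAtlas c ε pres

/-! ## Generic two-chart statements (any scheme `X` with an atlas) -/

section generic

variable {R : Type u} [CommRing R] {𝔹 : TwoChart R} {X : Scheme.{u}} (𝒜 : Atlas X 𝔹)

/-- **P2** (DONE, SLIB) (SM2; done many times, e.g. helper3190, helper5028, helper3205). -/
theorem isQuasicoherent_of_isInvertible {Y : Scheme.{u}} (M : Y.Modules)
    (hM : Scheme.Modules.IsInvertible M) : M.IsQuasicoherent :=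
  H5590.isQuasicoherent_of_isInvertible M hM

/-- **P3** (DONE, helper5590 on SLIB) sections of an invertible module on the charts are invertible modules. -/
theorem isLineBundle_toGlued (M : X.Modules) [M.IsQuasicoherent]
    (hM : Scheme.Modules.IsInvertible M) : (𝒜.toGlued M).IsLineBundle :=
  H5590.isLineBundle_toGlued 𝒜 M hM

/-- **P4** (DONE, helper5590 on SLIB) converse of P3. -/
theorem isInvertible_of_isLineBundle_toGlued (M : X.Modules) [M.IsQuasicoherent]
    (hM : (𝒜.toGlued M).IsLineBundle) : Scheme.Modules.IsInvertible M :=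
  H5590.isInvertible_of_isLineBundle_toGlued 𝒜 M hM

/-- **P5** (DONE: helper5770 `ofGlued` [`DICT/H5770/OfGlued.lean`] + helper5590 adapter
`DICT/H5590/{QcLocal,OfGluedAdapter}.lean`): essential surjectivity of `toGlued`. -/
theorem exists_toGlued_iso (N : GluedModule 𝔹) :
    ∃ (F : X.Modules) (_ : F.IsQuasicoherent), Nonempty (N.Iso (𝒜.toGlued F)) :=
  H5590.exists_toGlued_iso 𝒜 N

/-- **P6** (DONE: helper7710 `DICT/H7710/P6.lean`; also helper2030) (Hom gluing on two opens): `toGlued` reflects isomorphism classes. -/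
theorem nonempty_iso_of_toGlued_iso (M M' : X.Modules) [M.IsQuasicoherent] [M'.IsQuasicoherent]
    (h : Nonempty ((𝒜.toGlued M).Iso (𝒜.toGlued M'))) : Nonempty (M ≅ M') :=
  H7710.nonempty_iso_of_toGlued_iso 𝒜 M M' h

/-- **P7** (DONE: helper8090 `Unit.lean`, copied to `DICT/H8090/Unit.lean`) the structure sheaf corresponds to the unit glued module. -/
theorem toGlued_unit [(SheafOfModules.unit X.ringCatSheaf).IsQuasicoherent] :
    Nonempty ((𝒜.toGlued (SheafOfModules.unit X.ringCatSheaf)).Iso (GluedModule.unit 𝔹)) := by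
  obtain ⟨e⟩ := H8090.unit_iso_toGlued 𝒜
  exact ⟨e.symm⟩

/-- **P8** (DONE: helper2050 `DICT/H2050/IsBCToGlued.lean`) (SM3-BC; claims helper2388, helper2390, helper8290, helper8125, helper9530):
sections of a pullback along a morphism of atlases are the base change. -/
theorem isBC_toGlued {R' : Type u} [CommRing R'] {φ : R →+* R'} {𝔹' : TwoChart R'}
    (Ψ : TwoChart.Hom φ 𝔹 𝔹') {X' : Scheme.{u}} (𝒜' : Atlas X' 𝔹') (h : X' ⟶ X)
    (h₁ : 𝒜'.φ₁ ≫ h = Spec.map (CommRingCat.ofHom Ψ.ψ₁) ≫ 𝒜.φ₁)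
    (h₂ : 𝒜'.φ₂ ≫ h = Spec.map (CommRingCat.ofHom Ψ.ψ₂) ≫ 𝒜.φ₂)
    (M : X.Modules) [M.IsQuasicoherent] [((Scheme.Modules.pullback h).obj M).IsQuasicoherent] :
    GluedModule.IsBC Ψ (𝒜.toGlued M) (𝒜'.toGlued ((Scheme.Modules.pullback h).obj M)) :=
  H2050.isBC_toGlued 𝒜 Ψ 𝒜' h h₁ h₂ M

/-- **P9** (DONE: helper5590 `DICT/H5590/PointPullback.lean`) pullback along a point `σ = Spec e ≫ φ₁` of the first chart: `σ^* M` is trivial iff
the fibre `S ⊗[B₁, e] Γ(M, W₁)` is free of rank one (in `IsBCMap` form, see `UnivBC.lean`). -/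
theorem pullback_point_iso_unit_iff {S : Type u} [CommRing S] (e : 𝔹.B₁ →+* S)
    (σ : Spec (CommRingCat.of S) ⟶ X) (hσ : σ = Spec.map (CommRingCat.ofHom e) ≫ 𝒜.φ₁)
    (M : X.Modules) [M.IsQuasicoherent] :
    Nonempty ((Scheme.Modules.pullback σ).obj M ≅
        SheafOfModules.unit (Spec (CommRingCat.of S)).ringCatSheaf) ↔
      ∃ e' : (𝒜.toGlued M).N₁ →+ S, IsBCMap e e' :=
  H5590.pullback_point_iso_unit_iff 𝒜 e σ hσ M

end generic

/-- **P10** (DONE: helper5688 `DICT/H5688/EndRigid.lean`, exact statement). -/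
theorem end_rigid {k : Type u} [Field k] [IsAlgClosed k] {C : Scheme.{u}}
    (c : C ⟶ Spec (CommRingCat.of k)) [IsProper c] [IsIntegral C]
    (ε : SchemeHomOver (𝟙 (Spec (CommRingCat.of k))) c) {R : Type u} [CommRing R] [Algebra k R]
    (M : (pullback c (tR k R)).Modules) (hM : Scheme.Modules.IsInvertible M) (β : M ⟶ M)
    (hβ : (Scheme.Modules.pullback (rigSection c (tR k R) ε)).map β = 𝟙 _) : β = 𝟙 M :=
  H5688.end_rigid c ε M hM β hβ

/-! ## The dictionary -/

section dictionary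

variable {k : Type u} [Field k] {C : Scheme.{u}} {c : C ⟶ Spec (CommRingCat.of k)}
  {ε : SchemeHomOver (𝟙 (Spec (CommRingCat.of k))) c} {𝒞 : CurveData k}

variable [IsAlgClosed k] [IsProper c] [IsIntegral C]

/-- **Assembly** (no sorry of its own): the dictionary from P1-P10 and the BC stub. -/
noncomputable def dictionary (𝔄 : FamilyAtlas c ε 𝒞) : Dictionary c ε 𝒞 where
  Corr := Corr 𝔄
  inv_left h := h.1
  inv_right h := h.2.1
  exists_glued {R} _ _ M hM := by
    haveI := isQuasicoherent_of_isInvertible M hM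
    exact ⟨(𝔄.atlas R).toGlued M, hM, isLineBundle_toGlued _ M hM, ‹_›,
      ⟨GluedModule.Iso.refl _⟩⟩
  exists_module {R} _ _ N hN := by
    obtain ⟨F, hF, ⟨e⟩⟩ := exists_toGlued_iso (𝔄.atlas R) N
    exact ⟨F, isInvertible_of_isLineBundle_toGlued (𝔄.atlas R) F
      (isLineBundle_of_iso 𝒞 _ _ hN ⟨e⟩), hN, hF, ⟨e⟩⟩
  congr := by
    rintro R _ _ M M' N N' ⟨hM, hN, hq, ⟨e⟩⟩ ⟨i⟩ ⟨j⟩
    have hM' : Scheme.Modules.IsInvertible M' := isInvertible_of_iso hM i
    haveI := isQuasicoherent_of_isInvertible M' hM'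
    exact ⟨hM', isLineBundle_of_iso 𝒞 _ _ hN ⟨j⟩, ‹_›,
      ⟨j.symm.trans (e.trans ((𝔄.atlas R).toGluedIso i))⟩⟩
  iso_iff := by
    rintro R _ _ M M' N N' ⟨hM, hN, hq, ⟨e⟩⟩ ⟨hM', hN', hq', ⟨e'⟩⟩
    constructor
    · rintro ⟨i⟩
      exact ⟨e.trans (((𝔄.atlas R).toGluedIso i).trans e'.symm)⟩
    · rintro ⟨j⟩
      exact nonempty_iso_of_toGlued_iso (𝔄.atlas R) M M' ⟨e.symm.trans (j.trans e')⟩
  unit R _ _ := by
    have hu := Scheme.Modules.isInvertible_unit (pullback c (tR k R))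
    haveI := isQuasicoherent_of_isInvertible _ hu
    obtain ⟨e⟩ := toGlued_unit (𝔄.atlas R)
    exact ⟨hu, GluedModule.unit_isLineBundle _, ‹_›, ⟨e.symm⟩⟩
  bc := by
    rintro R R' _ _ _ _ φ M N N' ⟨hM, hN, hq, ⟨e⟩⟩ hBC
    have hM' := hM.pullback (baseChangeSnd c (specHomOver k φ))
    haveI := isQuasicoherent_of_isInvertible _ hM'
    have h1 := isBC_toGlued (𝔄.atlas R) (𝒞.chartHom φ) (𝔄.atlas R') _ (𝔄.bc₁ φ) (𝔄.bc₂ φ) M
    have h2 : GluedModule.IsBC (𝒞.chartHom φ) ((𝔄.atlas R).toGlued M) N' :=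
      isBC_of_iso 𝒞 φ N _ N' N' hBC ⟨e⟩ ⟨GluedModule.Iso.refl _⟩
    obtain ⟨e'⟩ := isBC_unique 𝒞 φ _ _ _ h2 h1
    exact ⟨hM', isLineBundle_of_isBC 𝒞 φ N N' hN hBC, ‹_›, ⟨e'⟩⟩
  rigid_iff := by
    rintro R _ _ M N ⟨hM, hN, hq, ⟨e⟩⟩
    rw [pullback_point_iso_unit_iff (𝔄.atlas R) (𝒞.epsR R : (𝒞.chart R).B₁ →+* R) _ (𝔄.rig R) M,
      rigid_iff_exists_isBCMap]
    constructor
    · rintro ⟨e', he'⟩
      exact ⟨e'.comp e.e₁.toLinearMap.toAddMonoidHom, he'.equiv_comp e.e₁⟩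
    · rintro ⟨e', he'⟩
      exact ⟨e'.comp e.e₁.symm.toLinearMap.toAddMonoidHom, he'.equiv_comp e.e₁.symm⟩
  end_rigid M hM β hβ := end_rigid c ε M hM β hβ

end dictionary

end Fermat.Agent.S25.DICT
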